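import Mathlib
import Fermat.Prelude.Def_CuspForm_HeckeGaloisRepDatum
import Fermat.Agent.MUL.Lib.TraceRigidity.Density
import Fermat.Agent.MUL.Orig.S17.Pts.Eval

section MergeWrap_S31_General -- from S31/General.lean

/-!
# S31 in full generality from points of the Hecke algebra (owner: helper62)

The frozen S31 has no `CharZero 𝒪` and no finiteness hypothesis on the residue field, and the
coefficient ring `T` of a datum need not be reduced (e.g. `𝒪 = 𝔽_p⟦t⟧`).  So one cannot argue with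
points of `T`.  Here S31 is reduced to a statement about the Hecke algebra `𝕋 = heckeAlgebra N 2 S`
alone:

`SeparatingPoints`: a FINITE family of ring homomorphisms `χ i : 𝕋 →+* O i` (Noetherian local
rings), each carrying a Galois representation with the Frobenius characteristic polynomials
`X² - χ i (T_ℓ) X + ℓ` and unramified at `q`, which separates `𝕋` uniformly in the `p`-adic
topology: for every `r` there is `m` such that `χ i X ∈ 𝔪ᵢ ^ m` for all `i` implies `X ∈ p ^ r 𝕋`.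

(The family exists by S30 applied to the completions of the normalisation of `𝕋` at the primes
over `p`, once `𝕋 ⊗ ℚ` is known to be reduced.)
-/

namespace Fermat.Agent.S31

open Polynomial Matrix Module Fermat.Agent.F3 Fermat.Agent.TraceRigidity

section Companion

variable {R : Type*} [CommRing R]

/-- The companion matrix of `X² - a X + d`. -/
def companion (a d : R) : Matrix (Fin 2) (Fin 2) R := !![0, -d; 1, a]

/-- The trace of the `j`-th power of a `2 × 2` matrix with trace `a` and determinant `d`. -/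
def trPow (a d : R) (j : ℕ) : R := (companion a d ^ j).trace

lemma companion_charpoly [Nontrivial R] (a d : R) :
    (companion a d).charpoly = X ^ 2 - C a * X + C d := by
  rw [Matrix.charpoly_fin_two]
  simp [companion, Matrix.trace_fin_two, Matrix.det_fin_two]

lemma map_trPow {R' : Type*} [CommRing R'] (φ : R →+* R') (a d : R) (j : ℕ) :
    φ (trPow a d j) = trPow (φ a) (φ d) j := by
  unfold trPow
  have h1 : companion (φ a) (φ d) = φ.mapMatrix (companion a d) := by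
    ext i k
    fin_cases i <;> fin_cases k <;> simp [companion]
  rw [h1, ← map_pow, RingHom.mapMatrix_apply]
  exact AddMonoidHom.map_trace φ _

/-- The trace of the `j`-th power of an endomorphism of a free module of rank two with
characteristic polynomial `X² - a X + d`. -/
lemma trace_pow_eq_trPow [Nontrivial R] {V : Type*} [AddCommGroup V] [Module R V]
    [Module.Free R V] [Module.Finite R V] (hV : Module.finrank R V = 2)
    (f : Module.End R V) (a d : R) (hf : f.charpoly = X ^ 2 - C a * X + C d) (j : ℕ) :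
    LinearMap.trace R V (f ^ j) = trPow a d j := by
  classical
  set b : Basis (Fin 2) R V := Module.finBasisOfFinrankEq R V hV
  rw [LinearMap.trace_eq_matrix_trace R b, ← LinearMap.toMatrix_pow]
  apply matrix_trace_pow_eq_of_charpoly_eq
  rw [LinearMap.charpoly_toMatrix, hf, companion_charpoly]

end Companion

section Injective

variable {A : Type*} [CommRing A] {G : Type*}

/-- The trace form is non-degenerate on a basis of `M₂(A)`. -/
lemma eq_zero_of_trace_mul_eq_zero (r : G → Matrix (Fin 2) (Fin 2) A) (g : Fin 2 × Fin 2 → G)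
    (hg : IsUnit (coordMat r g).det) (Y : Matrix (Fin 2) (Fin 2) A)
    (h : ∀ l, (Y * r (g l)).trace = 0) : Y = 0 := by
  have h1 : Matrix.vecMul (fun ab : Fin 2 × Fin 2 => Y ab.2 ab.1) (coordMat r g) = 0 := by
    funext l
    have := h l
    simp only [Matrix.trace, Matrix.diag_apply, Matrix.mul_apply] at this
    simp only [Matrix.vecMul, dotProduct, coordMat, Matrix.of_apply, Pi.zero_apply]
    rw [Fintype.sum_prod_type, Finset.sum_comm]
    exact this
  have h2 := Matrix.vecMul_injective_of_isUnit ((Matrix.isUnit_iff_isUnit_det _).2 hg)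
    (h1.trans (Matrix.zero_vecMul _).symm)
  ext a c
  exact congrFun h2 (c, a)

end Injective

variable {p : ℕ} {N : ℕ} [NeZero N] {S : Finset ℕ}

/-- A point of the Hecke algebra carrying a Galois representation unramified at `q`. -/
structure HeckePoint (N : ℕ) [NeZero N] (S : Finset ℕ) (q : ℕ) : Type 1 where
  /-- the coefficient ring -/
  O : Type
  [instCommRing : CommRing O]
  [instIsLocalRing : IsLocalRing O]
  [instNoeth : IsNoetherianRing O]
  /-- the eigen-system -/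
  χ : CuspForm.heckeAlgebra N 2 (↑S : Set ℕ) →+* O
  /-- the representation -/
  ρ : GaloisRepAdic O
  charpoly_frob : ∀ (ℓ : ℕ) (hℓ : ℓ.Prime) (hℓN : ¬ ℓ ∣ N) (hℓS : ℓ ∉ (↑S : Set ℕ)),
    ∀ A : ValuationSubring (AlgebraicClosure ℚ), A.LiesOverPrime ℓ →
      ∀ σ : GQ, A.IsFrobeniusAt σ ℓ →
        LinearMap.charpoly (ρ.ρ σ) =
          X ^ 2 - C (χ (CuspForm.heckeAlgebra.T hℓ hℓN hℓS)) * X + C ((ℓ : O))
  unram : ρ.IsUnramifiedAt q

attribute [instance] HeckePoint.instCommRing HeckePoint.instIsLocalRing HeckePoint.instNoeth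

/-- A finite family of points of the Hecke algebra, with representations unramified at `q`,
separating the Hecke algebra uniformly for the `p`-adic topology. -/
def SeparatingPoints (p N : ℕ) [NeZero N] (S : Finset ℕ) (q : ℕ) : Prop :=
  ∃ (d : ℕ) (P : Fin d → HeckePoint N S q), ∀ r : ℕ, ∃ m : ℕ,
    ∀ X : CuspForm.heckeAlgebra N 2 (↑S : Set ℕ),
      (∀ i, (P i).χ X ∈ IsLocalRing.maximalIdeal (P i).O ^ m) →
        ∃ Y : CuspForm.heckeAlgebra N 2 (↑S : Set ℕ), X = (p : CuspForm.heckeAlgebra N 2 _) ^ r * Y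

variable {𝒪 : Type} [CommRing 𝒪] [IsDomain 𝒪] [IsDiscreteValuationRing 𝒪]
  [IsAdicComplete (IsLocalRing.maximalIdeal 𝒪) 𝒪]
  {θ : CuspForm.heckeAlgebra N 2 (↑S : Set ℕ) →+* IsLocalRing.ResidueField 𝒪}
  {T : Type} [CommRing T] [IsLocalRing T] [IsNoetherianRing T]
  [IsAdicComplete (IsLocalRing.maximalIdeal T) T] [Algebra 𝒪 T] [IsLocalHom (algebraMap 𝒪 T)]
  [Module.Finite 𝒪 T] [Module.Free 𝒪 T]

/-- A level field for a representation: a finite normal extension such that the elements fixing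
it act trivially modulo `𝔪 ^ n`. -/
lemma exists_normal_level {A : Type} [CommRing A] [IsLocalRing A] (ρ : GaloisRepAdic A) (n : ℕ) :
    ∃ L : IntermediateField ℚ (AlgebraicClosure ℚ), FiniteDimensional ℚ L ∧ Normal ℚ L ∧
      ∀ σ : GQ, (∀ x ∈ L, σ x = x) →
        ∀ v : ρ.V, ρ.ρ σ v - v ∈ (IsLocalRing.maximalIdeal A ^ n) • (⊤ : Submodule A ρ.V) := by
  obtain ⟨L₁, hL₁fd, hL₁⟩ := ρ.isAdicContinuous n
  have := hL₁fd
  have hQalg : Algebra.IsAlgebraic ℚ (AlgebraicClosure ℚ) := AlgebraicClosure.isAlgebraic ℚ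
  have hQcl : IsAlgClosure ℚ (AlgebraicClosure ℚ) := ⟨inferInstance, hQalg⟩
  have hQn : Normal ℚ (AlgebraicClosure ℚ) :=
    (inferInstance : IsGalois ℚ (AlgebraicClosure ℚ)).to_normal
  refine ⟨IntermediateField.normalClosure ℚ (↥L₁) (AlgebraicClosure ℚ),
    normalClosure.is_finiteDimensional ℚ _ _, normalClosure.normal ℚ _ _, fun σ hσ => ?_⟩
  exact hL₁ σ fun x hx => hσ x (IntermediateField.le_normalClosure _ hx)

/-- Finite suprema of finite normal extensions. -/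
lemma exists_normal_sup (d : ℕ) (Ls : Fin d → IntermediateField ℚ (AlgebraicClosure ℚ))
    (hfd : ∀ i, FiniteDimensional ℚ (Ls i)) (hn : ∀ i, Normal ℚ (Ls i))
    (L₀ : IntermediateField ℚ (AlgebraicClosure ℚ)) (h0fd : FiniteDimensional ℚ L₀)
    (h0n : Normal ℚ L₀) :
    ∃ L : IntermediateField ℚ (AlgebraicClosure ℚ), FiniteDimensional ℚ L ∧ Normal ℚ L ∧
      L₀ ≤ L ∧ ∀ i, Ls i ≤ L := by
  have := hfd
  have := h0fd
  refine ⟨L₀ ⊔ ⨆ i, Ls i, ?_, ?_, le_sup_left, fun i => le_trans (le_iSup Ls i) le_sup_right⟩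
  · have : FiniteDimensional ℚ (⨆ i, Ls i : IntermediateField ℚ (AlgebraicClosure ℚ)) :=
      IntermediateField.finiteDimensional_iSup_of_finite
    exact IntermediateField.finiteDimensional_sup _ _
  · have h1 : Normal ℚ (⨆ i, Ls i : IntermediateField ℚ (AlgebraicClosure ℚ)) :=
      IntermediateField.normal_iSup ℚ (AlgebraicClosure ℚ) Ls (h := hn)
    exact @IntermediateField.normal_sup ℚ (AlgebraicClosure ℚ) _ _ _ L₀ _ h0n h1

/-- For an element `s` of `G_ℚ` and a finite normal `L`, a Frobenius element `τ` at a prime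
outside `S` and an exponent `j` with `τ ^ j = s` on `L`. -/
lemma exists_frob_pow (hdens : FrobDensityLite)
    (L : IntermediateField ℚ (AlgebraicClosure ℚ)) (hLfd : FiniteDimensional ℚ L)
    (hLn : Normal ℚ L) (s : GQ) (S : Finset ℕ) :
    ∃ (ℓ : ℕ) (A : ValuationSubring (AlgebraicClosure ℚ)) (τ : GQ) (j : ℕ),
      ℓ.Prime ∧ ℓ ∉ S ∧ A.LiesOverPrime ℓ ∧ A.IsFrobeniusAt τ ℓ ∧ ∀ x ∈ L, (τ ^ j) x = s x := by
  obtain ⟨ℓ, A, τ, k, j, hℓ, hℓS, hA, hτ, hτs, hkj⟩ := hdens L hLfd hLn s S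
  refine ⟨ℓ, A, τ, j, hℓ, hℓS, hA, hτ, ?_⟩
  have hQalg : Algebra.IsAlgebraic ℚ (AlgebraicClosure ℚ) := AlgebraicClosure.isAlgebraic ℚ
  have hQcl : IsAlgClosure ℚ (AlgebraicClosure ℚ) := ⟨inferInstance, hQalg⟩
  have hQn : Normal ℚ (AlgebraicClosure ℚ) :=
    (inferInstance : IsGalois ℚ (AlgebraicClosure ℚ)).to_normal
  have hstab : ∀ σ : GQ, ∀ x ∈ L, σ x ∈ L := by
    intro σ x hx
    exact (IntermediateField.normal_iff_forall_map_le'.1 hLn) σ ⟨x, hx, rfl⟩
  have hpow : ∀ m : ℕ, ∀ x ∈ L, (τ ^ m) x = ((s ^ k) ^ m) x := by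
    intro m
    induction m with
    | zero => intro x _; simp
    | succ m ih =>
      intro x hx
      rw [pow_succ, pow_succ, AlgEquiv.mul_apply, AlgEquiv.mul_apply, hτs x hx]
      exact ih _ (hstab _ x hx)
  intro x hx
  rw [hpow j x hx, ← pow_mul]
  exact hkj x hx

/-- **S31 in full generality**, from Frobenius density and separating points of the Hecke
algebra. -/
theorem isUnramifiedAt_of_separatingPoints (hdens : FrobDensityLite)
    (hp𝒪 : (p : 𝒪) ∈ IsLocalRing.maximalIdeal 𝒪)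
    (hNS : ∀ q : ℕ, q.Prime → q ∣ N → q ∈ S)
    (H : CuspForm.HeckeGaloisRepDatum N (↑S : Set ℕ) 𝒪 θ T)
    (q : ℕ) (hsep : SeparatingPoints p N S q) :
    H.ρ.IsUnramifiedAt q := by
  classical
  obtain ⟨d, P, hP⟩ := hsep
  have hpT : (p : T) ∈ IsLocalRing.maximalIdeal T := by
    have h1 : (p : T) = algebraMap 𝒪 T (p : 𝒪) := by simp
    rw [h1, IsLocalRing.mem_maximalIdeal, mem_nonunits_iff]
    intro hu
    exact (IsLocalRing.mem_maximalIdeal _).1 hp𝒪 (isUnit_of_map_unit (algebraMap 𝒪 T) _ hu)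
  have hbot : ⨅ n : ℕ, IsLocalRing.maximalIdeal T ^ n = ⊥ :=
    Ideal.iInf_pow_eq_bot_of_isLocalRing _ (Ideal.IsMaximal.ne_top inferInstance)
  set b : Basis (Fin 2) T H.ρ.V := Module.finBasisOfFinrankEq T H.ρ.V H.ρ.finrank_eq with hb
  obtain ⟨g, hg⟩ := exists_isUnit_det_coordMat H.ρ H.residual_absIrr b
  intro P₀ hP₀ σ hσ
  -- Step B: the trace identity
  have htrace : ∀ s : GQ, LinearMap.trace T H.ρ.V (H.ρ.ρ (σ * s)) =
      LinearMap.trace T H.ρ.V (H.ρ.ρ s) := by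
    intro s
    rw [← sub_eq_zero, ← Ideal.mem_bot, ← hbot, Ideal.mem_iInf]
    intro n
    obtain ⟨m, hm⟩ := hP n
    obtain ⟨L₀, hL₀fd, hL₀n, hL₀⟩ := exists_normal_level H.ρ n
    choose Ls hLsfd hLsn hLs using fun i => exists_normal_level (P i).ρ m
    obtain ⟨L, hLfd, hLn, hL₀L, hLsL⟩ := exists_normal_sup d Ls hLsfd hLsn L₀ hL₀fd hL₀n
    obtain ⟨ℓ₁, A₁, τ₁, j₁, hℓ₁, hℓ₁S, hA₁, hτ₁, hτ₁s⟩ := exists_frob_pow hdens L hLfd hLn s S
    obtain ⟨ℓ₂, A₂, τ₂, j₂, hℓ₂, hℓ₂S, hA₂, hτ₂, hτ₂s⟩ :=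
      exists_frob_pow hdens L hLfd hLn (σ * s) S
    have hℓ₁N : ¬ ℓ₁ ∣ N := fun h => hℓ₁S (hNS ℓ₁ hℓ₁ h)
    have hℓ₂N : ¬ ℓ₂ ∣ N := fun h => hℓ₂S (hNS ℓ₂ hℓ₂ h)
    have hℓ₁S' : ℓ₁ ∉ (↑S : Set ℕ) := fun h => hℓ₁S (Finset.mem_coe.1 h)
    have hℓ₂S' : ℓ₂ ∉ (↑S : Set ℕ) := fun h => hℓ₂S (Finset.mem_coe.1 h)
    set Xh : CuspForm.heckeAlgebra N 2 (↑S : Set ℕ) :=
      trPow (CuspForm.heckeAlgebra.T hℓ₂ hℓ₂N hℓ₂S') (ℓ₂ : CuspForm.heckeAlgebra N 2 _) j₂ -
      trPow (CuspForm.heckeAlgebra.T hℓ₁ hℓ₁N hℓ₁S') (ℓ₁ : CuspForm.heckeAlgebra N 2 _) j₁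
      with hXh
    -- the image of `X` under a ring homomorphism carrying a representation
    have himage : ∀ {A : Type} [CommRing A] [IsLocalRing A]
        (φ : CuspForm.heckeAlgebra N 2 (↑S : Set ℕ) →+* A) (ρ : GaloisRepAdic A),
        (∀ (ℓ : ℕ) (hℓ : ℓ.Prime) (hℓN : ¬ ℓ ∣ N) (hℓS : ℓ ∉ (↑S : Set ℕ)),
          ∀ A' : ValuationSubring (AlgebraicClosure ℚ), A'.LiesOverPrime ℓ →
            ∀ σ : GQ, A'.IsFrobeniusAt σ ℓ →
              LinearMap.charpoly (ρ.ρ σ) =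
                X ^ 2 - C (φ (CuspForm.heckeAlgebra.T hℓ hℓN hℓS)) * X + C ((ℓ : A))) →
        φ Xh = LinearMap.trace A ρ.V (ρ.ρ (τ₂ ^ j₂)) - LinearMap.trace A ρ.V (ρ.ρ (τ₁ ^ j₁)) := by
      intro A _ _ φ ρ hρ
      rw [hXh, map_sub, map_trPow, map_trPow, map_natCast, map_natCast, map_pow ρ.ρ, map_pow ρ.ρ,
        trace_pow_eq_trPow ρ.finrank_eq _ _ _ (hρ ℓ₂ hℓ₂ hℓ₂N hℓ₂S' A₂ hA₂ τ₂ hτ₂),
        trace_pow_eq_trPow ρ.finrank_eq _ _ _ (hρ ℓ₁ hℓ₁ hℓ₁N hℓ₁S' A₁ hA₁ τ₁ hτ₁)]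
    -- `χ i X ∈ 𝔪 ^ m`
    have hXi : ∀ i, (P i).χ Xh ∈ IsLocalRing.maximalIdeal (P i).O ^ m := by
      intro i
      rw [himage (P i).χ (P i).ρ (P i).charpoly_frob]
      have h1 := trace_sub_mem_of_agree (P i).ρ m L
        (fun σ' hσ' => hLs i σ' fun x hx => hσ' x (hLsL i hx)) s (τ₁ ^ j₁) hτ₁s
      have h2 := trace_sub_mem_of_agree (P i).ρ m L
        (fun σ' hσ' => hLs i σ' fun x hx => hσ' x (hLsL i hx)) (σ * s) (τ₂ ^ j₂) hτ₂s
      have h3 : (P i).ρ.ρ (σ * s) = (P i).ρ.ρ s := by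
        rw [map_mul, (P i).unram P₀ hP₀ σ hσ, one_mul]
      rw [h3] at h2
      have h4 : LinearMap.trace (P i).O (P i).ρ.V ((P i).ρ.ρ (τ₂ ^ j₂)) -
          LinearMap.trace (P i).O (P i).ρ.V ((P i).ρ.ρ (τ₁ ^ j₁)) =
          (LinearMap.trace (P i).O (P i).ρ.V ((P i).ρ.ρ (τ₂ ^ j₂)) -
            LinearMap.trace (P i).O (P i).ρ.V ((P i).ρ.ρ s)) -
          (LinearMap.trace (P i).O (P i).ρ.V ((P i).ρ.ρ (τ₁ ^ j₁)) -
            LinearMap.trace (P i).O (P i).ρ.V ((P i).ρ.ρ s)) := by ring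
      rw [h4]
      exact Ideal.sub_mem _ h2 h1
    obtain ⟨Y, hY⟩ := hm Xh hXi
    -- `π X ∈ 𝔪 ^ n`
    have hπX : H.π Xh ∈ IsLocalRing.maximalIdeal T ^ n := by
      rw [hY, map_mul, map_pow, map_natCast]
      exact Ideal.mul_mem_right _ _ (Ideal.pow_mem_pow hpT n)
    rw [himage H.π H.ρ H.charpoly_frob] at hπX
    have h1 := trace_sub_mem_of_agree H.ρ n L
      (fun σ' hσ' => hL₀ σ' fun x hx => hσ' x (hL₀L hx)) s (τ₁ ^ j₁) hτ₁s
    have h2 := trace_sub_mem_of_agree H.ρ n L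
      (fun σ' hσ' => hL₀ σ' fun x hx => hσ' x (hL₀L hx)) (σ * s) (τ₂ ^ j₂) hτ₂s
    have h4 : LinearMap.trace T H.ρ.V (H.ρ.ρ (σ * s)) - LinearMap.trace T H.ρ.V (H.ρ.ρ s) =
        (LinearMap.trace T H.ρ.V (H.ρ.ρ (τ₂ ^ j₂)) - LinearMap.trace T H.ρ.V (H.ρ.ρ (τ₁ ^ j₁))) -
        (LinearMap.trace T H.ρ.V (H.ρ.ρ (τ₂ ^ j₂)) - LinearMap.trace T H.ρ.V (H.ρ.ρ (σ * s))) +
        (LinearMap.trace T H.ρ.V (H.ρ.ρ (τ₁ ^ j₁)) - LinearMap.trace T H.ρ.V (H.ρ.ρ s)) := by
      ring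
    rw [h4]
    exact Ideal.add_mem _ (Ideal.sub_mem _ hπX h2) h1
  -- Step A: from the trace identity to `ρ σ = 1`
  apply (LinearMap.toMatrix b b).injective
  rw [LinearMap.toMatrix_one, ← sub_eq_zero]
  apply eq_zero_of_trace_mul_eq_zero (fun τ => LinearMap.toMatrix b b (H.ρ.ρ τ)) g hg
  intro l
  rw [sub_mul, one_mul, Matrix.trace_sub, ← LinearMap.toMatrix_mul, ← map_mul,
    ← LinearMap.trace_eq_matrix_trace T b, ← LinearMap.trace_eq_matrix_trace T b, htrace,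
    sub_self]

end Fermat.Agent.S31
end MergeWrap_S31_General
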